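import Fermat.Agent.ErezLattice.SquareRoot
import Mathlib.Algebra.Order.Star.Real
import Mathlib.Analysis.Matrix.PosDef
import Mathlib.NumberTheory.NumberField.Discriminant.Different
import Mathlib.NumberTheory.NumberField.FractionalIdeal
import Mathlib.NumberTheory.NumberField.InfinitePlace.Ramification
import Mathlib.RingTheory.Trace.Basic

/-!
# The unimodular lattice of Erez

For a Galois number field of odd degree the inverse `I` of the square root of the different is
stable under the group and equal to its dual for the trace form, which is positive as the field is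
totally real: a positive definite unimodular lattice.
-/

set_option autoImplicit false
set_option linter.style.haveILetI false

noncomputable section

namespace FA.ErezLattice

open NumberField Finset Matrix Module
open scoped Pointwise nonZeroDivisors

variable (L : Type*) [Field L] [NumberField L]

theorem differentIdeal_int_eq :
    differentIdeal (𝓞 ℚ) (𝓞 L) = differentIdeal ℤ (𝓞 L) := by
  rw [differentIdeal_eq_differentIdeal_mul_differentIdeal ℤ (𝓞 ℚ) (𝓞 L),
    show differentIdeal ℤ (𝓞 ℚ) = ⊤ from Ideal.absNorm_eq_one_iff.1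
      (by rw [absNorm_differentIdeal ℚ, Rat.numberField_discr, Int.natAbs_one]),
    Ideal.map_top, Ideal.mul_top]

variable [IsGalois ℚ L]

/-- Odd degree makes the field totally real. -/
theorem isTotallyReal_of_odd (hodd : Odd (finrank ℚ L)) : IsTotallyReal L := by
  haveI := IsUnramifiedAtInfinitePlaces_of_odd_finrank (k := ℚ) (K := L) hodd
  refine ⟨fun w => ?_⟩
  rcases InfinitePlace.isUnramified_iff.1 (IsUnramifiedAtInfinitePlaces.isUnramified
    (k := ℚ) w) with h | h
  · exact h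
  · exact absurd (IsTotallyReal.isReal _) (InfinitePlace.not_isReal_iff_isComplex.2 h)

/-- A real embedding. -/
theorem exists_real_embedding (hodd : Odd (finrank ℚ L)) : Nonempty (L →+* ℝ) := by
  haveI := isTotallyReal_of_odd L hodd
  obtain ⟨w⟩ : Nonempty (InfinitePlace L) := inferInstance
  exact ⟨InfinitePlace.embedding_of_isReal (IsTotallyReal.isReal w)⟩

/-- The trace as a sum of real numbers. -/
theorem trace_mul_eq_sum (φ : L →+* ℝ) (x y : L) :
    ((Algebra.trace ℚ L (x * y) : ℚ) : ℝ) = ∑ g : L ≃ₐ[ℚ] L, φ (g x) * φ (g y) := by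
  have h := congrArg φ (trace_eq_sum_automorphisms (K := ℚ) (x * y))
  rw [map_sum, eq_ratCast, map_ratCast] at h
  rw [h]
  exact Finset.sum_congr rfl fun g _ => by rw [map_mul, map_mul]

/-- **The trace form is positive.** -/
theorem trace_sq_pos (hodd : Odd (finrank ℚ L)) {x : L} (hx : x ≠ 0) :
    0 < Algebra.trace ℚ L (x * x) := by
  obtain ⟨φ⟩ := exists_real_embedding L hodd
  suffices (0 : ℝ) < ((Algebra.trace ℚ L (x * x) : ℚ) : ℝ) by exact_mod_cast this
  rw [trace_mul_eq_sum L φ]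
  refine lt_of_lt_of_le ?_ (single_le_sum (fun g _ => mul_self_nonneg (φ (g x)))
    (mem_univ (1 : L ≃ₐ[ℚ] L)))
  exact mul_self_pos.2 ((map_ne_zero φ).2 ((map_ne_zero _).2 hx))

variable {L} {A : Ideal (𝓞 L)} (hA : A ^ 2 = differentIdeal (𝓞 ℚ) (𝓞 L))

/-- The inverse of the square root. -/
def invSqrt (A : Ideal (𝓞 L)) : FractionalIdeal (𝓞 L)⁰ L := (A : FractionalIdeal (𝓞 L)⁰ L)⁻¹

include hA

omit [IsGalois ℚ L] in
theorem sqrt_ne_bot : A ≠ ⊥ := fun h => differentIdeal_ne_bot (A := 𝓞 ℚ) (B := 𝓞 L) (by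
  rw [← hA, h, ← Ideal.zero_eq_bot, zero_pow two_ne_zero])

theorem invSqrt_mul_self :
    invSqrt A * invSqrt A = FractionalIdeal.dual ℤ ℚ (1 : FractionalIdeal (𝓞 L)⁰ L) := by
  rw [invSqrt, ← mul_inv, ← FractionalIdeal.coeIdeal_mul, ← pow_two, hA, differentIdeal_int_eq,
    coeIdeal_differentIdeal ℤ ℚ L (𝓞 L), inv_inv]

omit [IsGalois ℚ L] in
theorem invSqrt_ne_zero : invSqrt A ≠ 0 :=
  inv_ne_zero (FractionalIdeal.coeIdeal_ne_zero.2 (sqrt_ne_bot hA))

/-- **Self-duality.** -/
theorem dual_invSqrt : FractionalIdeal.dual ℤ ℚ (invSqrt A) = invSqrt A := by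
  rw [FractionalIdeal.dual_eq_mul_inv, ← invSqrt_mul_self hA, mul_assoc,
    mul_inv_cancel₀ (invSqrt_ne_zero hA), mul_one]

/-- The trace form is integral. -/
theorem exists_trace_mul {x y : L} (hx : x ∈ invSqrt A) (hy : y ∈ invSqrt A) :
    ∃ z : ℤ, Algebra.trace ℚ L (x * y) = z := by
  have h : x ∈ FractionalIdeal.dual ℤ ℚ (invSqrt A) := (SetLike.ext_iff.1 (dual_invSqrt hA) x).2 hx
  obtain ⟨z, hz⟩ := (FractionalIdeal.mem_dual (invSqrt_ne_zero hA)).1 h y hy
  exact ⟨z, by rw [Algebra.traceForm_apply] at hz; rw [← hz]; simp⟩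

/-- **The lattice is stable under the group.** -/
theorem apply_mem_invSqrt (hodd : Odd (finrank ℚ L)) (g : L ≃ₐ[ℚ] L) {x : L}
    (hx : x ∈ invSqrt A) : g x ∈ invSqrt A := by
  have hA0 : (A : FractionalIdeal (𝓞 L)⁰ L) ≠ 0 :=
    FractionalIdeal.coeIdeal_ne_zero.2 (sqrt_ne_bot hA)
  rw [invSqrt, FractionalIdeal.mem_inv_iff hA0] at hx ⊢
  intro y hy
  obtain ⟨a, ha, rfl⟩ := (FractionalIdeal.mem_coeIdeal _).1 hy
  have hga : g⁻¹ • a ∈ A := by
    have hfix : g • A = A := smul_sqrt ℚ L (by rwa [IsGalois.card_aut_eq_finrank ℚ L]) hA g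
    rw [← hfix] at ha
    exact Ideal.mem_pointwise_smul_iff_inv_smul_mem.1 ha
  obtain ⟨z, hz⟩ := (FractionalIdeal.mem_one_iff _).1
    (hx _ ((FractionalIdeal.mem_coeIdeal _).2 ⟨g⁻¹ • a, hga, rfl⟩))
  refine (FractionalIdeal.mem_one_iff _).2 ⟨g • z, ?_⟩
  rw [show algebraMap (𝓞 L) L (g • z) = g (algebraMap (𝓞 L) L z) from algebraMap.coe_smul' g z L,
    hz, map_mul]
  congr 1
  rw [show algebraMap (𝓞 L) L (g⁻¹ • a) = g⁻¹ (algebraMap (𝓞 L) L a) from
    algebraMap.coe_smul' g⁻¹ a L, AlgEquiv.aut_inv, AlgEquiv.apply_symm_apply]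

/-- **A basis with a unimodular positive Gram matrix.** -/
theorem exists_gram (hodd : Odd (finrank ℚ L)) :
    ∃ (b : Basis (Fin (finrank ℚ L)) ℚ L) (Q : Matrix (Fin (finrank ℚ L)) (Fin (finrank ℚ L)) ℤ),
      (∀ x, x ∈ Submodule.span ℤ (Set.range b) ↔ x ∈ invSqrt A) ∧
      (∀ i j, Algebra.trace ℚ L (b i * b j) = (Q i j : ℚ)) ∧
      (Q.map fun z : ℤ => (z : ℝ)).PosDef ∧ Q.det = 1 := by
  classical
  let I : (FractionalIdeal (𝓞 L)⁰ L)ˣ := Units.mk0 (invSqrt A) (invSqrt_ne_zero hA)
  let b₀ := basisOfFractionalIdeal L I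
  let b : Basis (Fin (finrank ℚ L)) ℚ L :=
    b₀.reindex (Fintype.equivFinOfCardEq (finrank_eq_card_basis b₀).symm)
  have hspan : ∀ x, x ∈ Submodule.span ℤ (Set.range b) ↔ x ∈ invSqrt A := fun x => by
    rw [Basis.range_reindex]
    exact mem_span_basisOfFractionalIdeal L
  have hmem : ∀ i, b i ∈ invSqrt A := fun i =>
    (hspan _).1 (Submodule.subset_span (Set.mem_range_self i))
  choose Q hQ using fun i j => exists_trace_mul hA (hmem i) (hmem j)
  -- the dual basis lies in the lattice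
  set c := (Algebra.traceForm ℚ L).dualBasis (traceForm_nondegenerate ℚ L) b
  have hc : ∀ j, c j ∈ invSqrt A := fun j => by
    refine (SetLike.ext_iff.1 (dual_invSqrt hA) (c j)).1 ?_
    rw [FractionalIdeal.mem_dual (invSqrt_ne_zero hA)]
    intro a ha
    obtain ⟨z, rfl⟩ := (Submodule.mem_span_range_iff_exists_fun ℤ).1 ((hspan a).2 ha)
    refine ⟨z j, ?_⟩
    rw [map_sum, Finset.sum_eq_single j (fun k _ hk => ?_) fun h => absurd (mem_univ j) h]
    · simp only [map_zsmul, c, LinearMap.BilinForm.apply_dualBasis_left, if_pos]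
      simp
    · simp only [map_zsmul, c, LinearMap.BilinForm.apply_dualBasis_left, if_neg hk, smul_zero]
  choose U hU using fun j => (Submodule.mem_span_range_iff_exists_fun ℤ).1 ((hspan _).2 (hc j))
  have hUQ : Matrix.of U * Matrix.of Q = 1 := by
    ext j k
    rw [Matrix.mul_apply, Matrix.one_apply]
    refine Int.cast_injective (α := ℚ) ?_
    have h : Algebra.traceForm ℚ L (c j) (b k) = if k = j then 1 else 0 :=
      LinearMap.BilinForm.apply_dualBasis_left _ _ j k
    rw [Algebra.traceForm_apply, ← hU j, Finset.sum_mul, map_sum] at h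
    push_cast
    simp only [Matrix.of_apply]
    rw [show ∑ i, (U j i : ℚ) * (Q i k : ℚ) = ∑ i, Algebra.trace ℚ L (U j i • b i * b k) from
      Finset.sum_congr rfl fun i _ => by
        rw [zsmul_eq_mul, mul_assoc, show (U j i : L) * (b i * b k) = (U j i : ℚ) • (b i * b k) by
          rw [Algebra.smul_def, map_intCast], map_smul, smul_eq_mul, hQ], h]
    by_cases hjk : j = k
    · simp [hjk]
    · simp [hjk, Ne.symm hjk]
  have hunit : IsUnit (Matrix.of Q).det := IsUnit.of_mul_eq_one_right _ (by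
    rw [← Matrix.det_mul, hUQ, Matrix.det_one])
  obtain ⟨φ⟩ := exists_real_embedding L hodd
  let M : Matrix (L ≃ₐ[ℚ] L) (Fin (finrank ℚ L)) ℝ := Matrix.of fun g i => φ (g (b i))
  have hQM : ((Matrix.of Q).map fun z : ℤ => (z : ℝ)) = Mᴴ * M := by
    ext i j
    rw [Matrix.map_apply, Matrix.mul_apply, Matrix.of_apply]
    have h := trace_mul_eq_sum L φ (b i) (b j)
    rw [hQ, Rat.cast_intCast] at h
    rw [h]
    exact Finset.sum_congr rfl fun g _ => by simp [M]
  have hpos : ((Matrix.of Q).map fun z : ℤ => (z : ℝ)).PosDef := by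
    rw [hQM]
    refine Matrix.PosDef.conjTranspose_mul_self M fun v w hvw => ?_
    have h := hunit.map (Int.castRingHom ℝ)
    rw [RingHom.map_det] at h
    refine (Matrix.mulVec_injective_iff_isUnit (A := (Matrix.of Q).map fun z : ℤ => (z : ℝ))).2
      ((Matrix.isUnit_iff_isUnit_det _).2 h) ?_
    simp only [hQM, ← Matrix.mulVec_mulVec]
    exact congrArg _ hvw
  refine ⟨b, Matrix.of Q, hspan, fun i j => hQ i j, hpos, ?_⟩
  rcases Int.isUnit_iff.1 hunit with h | h
  · exact h
  · exfalso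
    have h1 := hpos.det_pos
    rw [show ((Matrix.of Q).map fun z : ℤ => (z : ℝ)).det = ((Matrix.of Q).det : ℝ) from
      ((Int.castRingHom ℝ).map_det _).symm, h] at h1
    norm_num at h1

omit [IsGalois ℚ L] in
theorem natAbs_discr_eq_sq : (discr L).natAbs = Ideal.absNorm A ^ 2 := by
  rw [← map_pow, hA, differentIdeal_int_eq, absNorm_differentIdeal L]

/-- **The discriminant is a square.** -/
theorem discr_eq_sq (hodd : Odd (finrank ℚ L)) : discr L = (Ideal.absNorm A : ℤ) ^ 2 := by
  haveI := isTotallyReal_of_odd L hodd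
  rw [← Int.sign_mul_natAbs (discr L), sign_discr, nrComplexPlaces_eq_zero_iff.2 inferInstance,
    pow_zero, one_mul, natAbs_discr_eq_sq hA, Nat.cast_pow]

end FA.ErezLattice

end
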