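import Fermat.Agent.ErezLattice.Lattice
import Fermat.Agent.Reduction.Unimodular

/-!
# A self-dual normal basis in degrees three and five

By Hermite the lattice of Erez contains a vector `e` of norm one. For a group of odd prime order
the conjugates of `e` differ even up to sign, so they are orthogonal: an orthonormal family in a
self-dual lattice, hence a basis of it.
-/

set_option autoImplicit false
set_option linter.style.haveILetI false

noncomputable section

namespace FA.ErezLattice

open NumberField Finset Matrix Module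
open scoped Pointwise nonZeroDivisors

variable {L : Type*} [Field L] [NumberField L] [IsGalois ℚ L] {A : Ideal (𝓞 L)}
  (hA : A ^ 2 = differentIdeal (𝓞 ℚ) (𝓞 L))

omit [IsGalois ℚ L] in
theorem intCast_mul_trace (z : ℤ) (x : L) :
    Algebra.trace ℚ L ((z : L) * x) = (z : ℚ) * Algebra.trace ℚ L x := by
  rw [show (z : L) * x = (z : ℚ) • x by rw [Algebra.smul_def, map_intCast], map_smul, smul_eq_mul]

omit [IsGalois ℚ L] in
theorem trace_apply_mul (g : L ≃ₐ[ℚ] L) (x y : L) :
    Algebra.trace ℚ L (g x * g y) = Algebra.trace ℚ L (x * y) := by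
  rw [← map_mul, Algebra.trace_eq_of_algEquiv]

include hA in
/-- A vector of norm one, in at most five variables. -/
theorem exists_unit_vector (hodd : Odd (finrank ℚ L)) (hle : finrank ℚ L ≤ 5) :
    ∃ e ∈ invSqrt A, Algebra.trace ℚ L (e * e) = 1 := by
  obtain ⟨b, Q, hspan, hQ, hpos, hdet⟩ := exists_gram hA hodd
  obtain ⟨U, -, hU⟩ := FA.Reduction.congr_one_of_unimodular _ hle Q hpos hdet
  have i₀ : Fin (finrank ℚ L) := ⟨0, finrank_pos⟩
  refine ⟨∑ k, U k i₀ • b k,
    (hspan _).1 ((Submodule.mem_span_range_iff_exists_fun ℤ).2 ⟨fun k => U k i₀, rfl⟩), ?_⟩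
  have h := congrFun (congrFun hU i₀) i₀
  rw [Matrix.one_apply_eq] at h
  simp only [Matrix.mul_apply, Matrix.transpose_apply] at h
  have h' : (1 : ℚ) = ∑ x, (∑ y, (U y i₀ : ℚ) * (Q y x : ℚ)) * (U x i₀ : ℚ) := by exact_mod_cast h
  rw [h']
  simp only [Finset.sum_mul, Finset.mul_sum, map_sum, zsmul_eq_mul]
  refine Finset.sum_congr rfl fun x _ => Finset.sum_congr rfl fun y _ => ?_
  rw [show (U y i₀ : L) * b y * ((U x i₀ : L) * b x) =
      (U y i₀ : L) * ((U x i₀ : L) * (b y * b x)) by ring, intCast_mul_trace, intCast_mul_trace,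
    hQ]
  ring

include hA in
/-- **The conjugates of a vector of norm one are orthogonal.** -/
theorem trace_apply_mul_self_eq_ite [DecidableEq (L ≃ₐ[ℚ] L)] (hp : (finrank ℚ L).Prime)
    (hodd : Odd (finrank ℚ L)) {e : L} (he : e ∈ invSqrt A)
    (h1 : Algebra.trace ℚ L (e * e) = 1) (g h : L ≃ₐ[ℚ] L) :
    Algebra.trace ℚ L (g e * h e) = if g = h then 1 else 0 := by
  by_cases hgh : g = h
  · rw [if_pos hgh, hgh, trace_apply_mul, h1]
  rw [if_neg hgh]
  set k := h⁻¹ * g
  have hk : k ≠ 1 := fun e' => hgh (inv_mul_eq_one.1 e').symm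
  rw [show g e = h (k e) by rw [show g = h * k from (mul_inv_cancel_left h g).symm]; rfl,
    trace_apply_mul]
  obtain ⟨c, hc⟩ := exists_trace_mul hA (apply_mem_invSqrt hA hodd k he) he
  rw [hc, Int.cast_eq_zero]
  by_contra hc0
  -- then `k e = c e`
  have hsq : Algebra.trace ℚ L ((k e - (c : L) * e) * (k e - (c : L) * e)) =
      1 - (c : ℚ) ^ 2 := by
    rw [show (k e - (c : L) * e) * (k e - (c : L) * e) =
      k e * k e - (c : L) * ((2 : ℤ) * (k e * e)) + (c : L) * ((c : L) * (e * e)) by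
        push_cast; ring, map_add, map_sub, intCast_mul_trace, intCast_mul_trace,
      intCast_mul_trace, intCast_mul_trace, trace_apply_mul, h1, hc]
    push_cast
    ring
  have hzero : k e - (c : L) * e = 0 := by
    by_contra hne
    have hpos := trace_sq_pos L hodd hne
    rw [hsq] at hpos
    have h2 : (1 : ℤ) ≤ c ^ 2 := by nlinarith [Int.one_le_abs hc0, sq_abs c]
    have h3 : (1 : ℚ) ≤ (c : ℚ) ^ 2 := by exact_mod_cast h2
    linarith
  rw [hzero, mul_zero, map_zero] at hsq
  have hke : k e = (c : L) * e := sub_eq_zero.1 hzero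
  have hc1 : c = 1 ∨ c = -1 := sq_eq_one_iff.1 (by exact_mod_cast (by linarith : (c : ℚ) ^ 2 = 1))
  have hiter : ∀ m : ℕ, (k ^ m) e = (c : L) ^ m * e := fun m => by
    induction m with
    | zero => simp
    | succ m ih =>
      rw [pow_succ' k, AlgEquiv.mul_apply, ih, map_mul, map_pow, map_intCast, hke]
      ring
  have he0 : e ≠ 0 := fun h' => by simp [h'] at h1
  have hcard : Nat.card (L ≃ₐ[ℚ] L) = finrank ℚ L := IsGalois.card_aut_eq_finrank ℚ L
  rcases hc1 with rfl | rfl
  · haveI := Fact.mk hp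
    have htop := zpowers_eq_top_of_prime_card hcard hk
    have hfix : ∀ σ : L ≃ₐ[ℚ] L, σ e = e := fun σ => by
      obtain ⟨m, rfl⟩ := mem_powers_iff_mem_zpowers.2 (htop ▸ Subgroup.mem_top σ)
      simpa using hiter m
    obtain ⟨q, rfl⟩ := (IsGalois.mem_range_algebraMap_iff_fixed e).2 hfix
    rw [← map_mul, Algebra.trace_algebraMap, nsmul_eq_mul] at h1
    have hn : IsSquare (finrank ℚ L : ℚ) := by
      refine ⟨q⁻¹, ?_⟩
      have hq : q ≠ 0 := fun h' => by simp [h'] at h1
      field_simp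
      linear_combination h1
    exact hp.not_isSquare (Rat.isSquare_natCast_iff.1 hn)
  · have h' := hiter (Nat.card (L ≃ₐ[ℚ] L))
    rw [pow_card_eq_one', hcard] at h'
    push_cast at h'
    rw [hodd.neg_one_pow, AlgEquiv.one_apply, neg_one_mul, CharZero.eq_neg_self_iff] at h'
    exact he0 h'

include hA in
/-- **A self-dual normal basis.** -/
theorem exists_normal_basis [DecidableEq (L ≃ₐ[ℚ] L)] (hn : finrank ℚ L = 3 ∨ finrank ℚ L = 5) :
    ∃ e ∈ invSqrt A,
      (∀ g h : L ≃ₐ[ℚ] L, Algebra.trace ℚ L (g e * h e) = if g = h then 1 else 0) ∧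
      ∀ x ∈ invSqrt A, ∃! c : (L ≃ₐ[ℚ] L) → ℤ, x = ∑ g, c g • g e := by
  have hp : (finrank ℚ L).Prime := by rcases hn with h | h <;> rw [h] <;> norm_num
  have hodd : Odd (finrank ℚ L) := hp.odd_of_ne_two (by omega)
  obtain ⟨e, he, h1⟩ := exists_unit_vector hA hodd (by omega)
  have hort := trace_apply_mul_self_eq_ite hA hp hodd he h1
  refine ⟨e, he, hort, fun x hx => ?_⟩
  have hli : LinearIndependent ℚ fun g : L ≃ₐ[ℚ] L => g e := by
    refine Fintype.linearIndependent_iff.2 fun a ha h => ?_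
    have := congrArg (fun y => Algebra.trace ℚ L (y * h e)) ha
    simpa [Finset.sum_mul, hort] using this
  have hcard : Fintype.card (L ≃ₐ[ℚ] L) = finrank ℚ L := by
    rw [← Nat.card_eq_fintype_card, IsGalois.card_aut_eq_finrank]
  have htop := hli.span_eq_top_of_card_eq_finrank hcard
  obtain ⟨a, ha⟩ := (Submodule.mem_span_range_iff_exists_fun ℚ).1
    (htop ▸ Submodule.mem_top : x ∈ Submodule.span ℚ (Set.range fun g : L ≃ₐ[ℚ] L => g e))
  choose z hz using fun g => exists_trace_mul hA hx (apply_mem_invSqrt hA hodd g he)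
  have hza : ∀ g, a g = z g := fun g => by
    rw [← hz, ← ha]
    simp [Finset.sum_mul, hort]
  refine ⟨z, ?_, fun c hc => funext fun g => ?_⟩
  · change x = ∑ g, z g • g e
    rw [← ha]
    exact Finset.sum_congr rfl fun g _ => by rw [hza, Int.cast_smul_eq_zsmul]
  · refine Int.cast_injective (α := ℚ) ?_
    rw [← hz, hc]
    simp only [Finset.sum_mul, map_sum, zsmul_eq_mul, mul_assoc, intCast_mul_trace, hort]
    simp

omit [IsGalois ℚ L] in
/-- The values of the trace form on such a lattice. -/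
theorem trace_sq_eq_sum [DecidableEq (L ≃ₐ[ℚ] L)] {e : L}
    (hort : ∀ g h : L ≃ₐ[ℚ] L, Algebra.trace ℚ L (g e * h e) = if g = h then 1 else 0)
    (c : (L ≃ₐ[ℚ] L) → ℤ) :
    Algebra.trace ℚ L ((∑ g, c g • g e) * ∑ g, c g • g e) = ((∑ g, c g ^ 2 : ℤ) : ℚ) := by
  simp only [Finset.sum_mul, Finset.mul_sum, map_sum, zsmul_eq_mul]
  rw [Int.cast_sum]
  refine Finset.sum_congr rfl fun g _ => ?_
  rw [Finset.sum_eq_single g (fun h _ hhg => ?_) fun h => absurd (mem_univ g) h]
  · rw [show (c g : L) * g e * ((c g : L) * g e) = (c g : L) * ((c g : L) * (g e * g e)) by ring,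
      intCast_mul_trace, intCast_mul_trace, hort, if_pos rfl]
    push_cast
    ring
  · rw [show (c h : L) * h e * ((c g : L) * g e) = (c h : L) * ((c g : L) * (h e * g e)) by ring,
      intCast_mul_trace, intCast_mul_trace, hort, if_neg hhg, mul_zero, mul_zero]

end FA.ErezLattice

end
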