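import Fermat.Agent.DecompositionGroups.Filtration
import Mathlib.RingTheory.DedekindDomain.Different
import Mathlib.RingTheory.DedekindDomain.Ideal.Lemmas

/-!
# A square root of the different

In a Galois extension of odd degree every ramification group has odd order, so by Hilbert's formula
every exponent of the different is even. The different is stable under the group, so its square
root is stable too. At odd residue characteristic the exponent is even iff `e` is odd.
-/

set_option autoImplicit false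
set_option linter.style.haveILetI false

noncomputable section

namespace FA.ErezLattice

open NumberField Finset FA.HilbertDifferent
open scoped Pointwise nonZeroDivisors

variable (K L : Type*) [Field K] [NumberField K] [Field L] [NumberField L] [Algebra K L]
  [IsGalois K L]

/-- At odd residue characteristic the parity of the exponent is that of `e - 1`. -/
theorem exponent_parity (P : Ideal (𝓞 L)) [hP : P.IsMaximal]
    (h2 : (2 : 𝓞 L ⧸ P) ≠ 0 ∨ Odd (Nat.card (L ≃ₐ[K] L))) :
    ∃ k : ℕ, emultiplicity P (differentIdeal (𝓞 K) (𝓞 L)) =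
      ((Nat.card (P.inertia (L ≃ₐ[K] L)) - 1 + 2 * k : ℕ) : ℕ∞) := by
  classical
  obtain ⟨N, hN⟩ := exists_ramGroup_eq_bot K P
  have hN' : ramGroup K P (N + 1) = ⊥ :=
    le_bot_iff.1 ((ramGroup_anti K P (by omega)).trans hN.le)
  have hev : ∀ n, Even (Nat.card (ramGroup K P (n + 1)) - 1) := fun n => by
    have hodd : Odd (Nat.card (ramGroup K P (n + 1))) := by
      rcases h2 with h2 | h2
      · letI := Ideal.Quotient.field P
        haveI : Finite (𝓞 L ⧸ P) :=
          Ring.HasFiniteQuotients.finiteQuotient (ne_bot_of_isMaximal P)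
        obtain ⟨p, hchar⟩ := CharP.exists (𝓞 L ⧸ P)
        haveI : Fact p.Prime := ⟨CharP.char_is_prime (𝓞 L ⧸ P) p⟩
        have hp2 : p ≠ 2 := by
          rintro rfl
          exact h2 (CharP.cast_eq_zero (𝓞 L ⧸ P) 2)
        obtain ⟨k, hk⟩ := IsPGroup.iff_card.1
          ((FA.DecompositionGroups.isPGroup_ramGroup_one K P p).to_le
            (ramGroup_anti K P (Nat.le_add_left 1 n)))
        rw [hk]
        exact ((Fact.out : p.Prime).odd_of_ne_two hp2).pow
      · exact h2.of_dvd_nat (Subgroup.card_subgroup_dvd_card _)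
    exact hodd.tsub_odd odd_one
  obtain ⟨k, hk⟩ := Finset.even_sum (s := range N)
    (fun n => Nat.card (ramGroup K P (n + 1)) - 1) fun n _ => hev n
  refine ⟨k, ?_⟩
  rw [emultiplicity_differentIdeal K hN', Finset.sum_range_succ', ramGroup_zero, hk, add_comm,
    two_mul]

/-- **The exponent is even iff `e` is odd**, at odd residue characteristic. -/
theorem exponent_even_iff (P : Ideal (𝓞 L)) [hP : P.IsMaximal] (h2 : (2 : 𝓞 L ⧸ P) ≠ 0) :
    (∃ k : ℕ, emultiplicity P (differentIdeal (𝓞 K) (𝓞 L)) = ((2 * k : ℕ) : ℕ∞)) ↔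
      Odd (Nat.card (P.inertia (L ≃ₐ[K] L))) := by
  obtain ⟨k, hk⟩ := exponent_parity K L P (Or.inl h2)
  rw [hk]
  have he : 0 < Nat.card (P.inertia (L ≃ₐ[K] L)) := Nat.card_pos
  simp only [Nat.cast_inj]
  rw [Nat.odd_iff]
  refine ⟨fun ⟨j, hj⟩ => by omega,
    fun h => ⟨(Nat.card (P.inertia (L ≃ₐ[K] L)) - 1) / 2 + k, by omega⟩⟩

/-- **The different is a square in odd degree.** -/
theorem exists_sqrt (hodd : Odd (Nat.card (L ≃ₐ[K] L))) :
    ∃! A : Ideal (𝓞 L), A ^ 2 = differentIdeal (𝓞 K) (𝓞 L) := by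
  classical
  set D := differentIdeal (𝓞 K) (𝓞 L)
  have hD : D ≠ ⊥ := differentIdeal_ne_bot
  set m := UniqueFactorizationMonoid.normalizedFactors D
  have heven : ∀ P ∈ m.toFinset, 2 ∣ m.count P := fun P hP => by
    rw [Multiset.mem_toFinset] at hP
    have hp := UniqueFactorizationMonoid.prime_of_normalized_factor P hP
    haveI := (Ideal.isPrime_of_prime hp).isMaximal hp.ne_zero
    obtain ⟨k, hk⟩ := exponent_parity K L P (Or.inr hodd)
    rw [UniqueFactorizationMonoid.emultiplicity_eq_count_normalizedFactors hp.irreducible hD,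
      normalize_eq, Nat.cast_inj] at hk
    have he : Odd (Nat.card (P.inertia (L ≃ₐ[K] L))) :=
      hodd.of_dvd_nat (Subgroup.card_subgroup_dvd_card _)
    rw [Nat.odd_iff] at he
    rw [hk]
    omega
  refine ⟨∏ P ∈ m.toFinset, P ^ (m.count P / 2), ?_, fun B hB => ?_⟩
  · change (∏ P ∈ m.toFinset, P ^ (m.count P / 2)) ^ 2 = D
    rw [← Finset.prod_pow, Finset.prod_congr rfl fun P hP => show (P ^ (m.count P / 2)) ^ 2 =
      P ^ m.count P by rw [← pow_mul, Nat.div_mul_cancel (heven P hP)],
      ← Finset.prod_multiset_count]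
    exact Ideal.prod_normalizedFactors_eq_self hD
  · have h : B ^ 2 = (∏ P ∈ m.toFinset, P ^ (m.count P / 2)) ^ 2 := by
      rw [hB, ← Finset.prod_pow, Finset.prod_congr rfl fun P hP => show (P ^ (m.count P / 2)) ^ 2 =
        P ^ m.count P by rw [← pow_mul, Nat.div_mul_cancel (heven P hP)],
        ← Finset.prod_multiset_count]
      exact (Ideal.prod_normalizedFactors_eq_self hD).symm
    exact dvd_antisymm ((UniqueFactorizationMonoid.pow_dvd_pow_iff_dvd two_ne_zero).1 h.dvd)
      ((UniqueFactorizationMonoid.pow_dvd_pow_iff_dvd two_ne_zero).1 h.symm.dvd)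

omit [IsGalois K L] in
/-- The different is stable under the automorphisms. -/
theorem smul_differentIdeal (τ : L ≃ₐ[K] L) :
    τ • differentIdeal (𝓞 K) (𝓞 L) = differentIdeal (𝓞 K) (𝓞 L) := by
  have key : ∀ σ : L ≃ₐ[K] L,
      differentIdeal (𝓞 K) (𝓞 L) ≤ σ • differentIdeal (𝓞 K) (𝓞 L) := by
    intro σ
    set D := differentIdeal (𝓞 K) (𝓞 L)
    have hD : D ≠ ⊥ := differentIdeal_ne_bot
    have hσD : σ • D ≠ ⊥ := fun h => hD (by
      rw [eq_bot_iff]
      intro x hx
      have := Ideal.smul_mem_pointwise_smul σ x D hx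
      rw [h, Ideal.mem_bot, smul_eq_zero_iff_eq] at this
      exact this)
    rw [differentialIdeal_le_iff (K := K) (L := L) hσD, Submodule.map_le_iff_le_comap]
    intro x hx
    rw [Submodule.restrictScalars_mem, FractionalIdeal.mem_coe,
      FractionalIdeal.mem_inv_iff (by simpa using hσD)] at hx
    have hy : σ⁻¹ x ∈ ((D : FractionalIdeal (𝓞 L)⁰ L)⁻¹) := by
      rw [FractionalIdeal.mem_inv_iff (by simpa using hD)]
      intro y hy
      obtain ⟨d, hd, rfl⟩ := (FractionalIdeal.mem_coeIdeal _).mp hy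
      obtain ⟨z, hz⟩ := (FractionalIdeal.mem_one_iff _).mp (hx (σ • d : 𝓞 L)
        ((FractionalIdeal.mem_coeIdeal _).mpr ⟨σ • d, Ideal.smul_mem_pointwise_smul σ d D hd,
          rfl⟩))
      refine (FractionalIdeal.mem_one_iff _).mpr ⟨σ⁻¹ • z, ?_⟩
      rw [show (algebraMap (𝓞 L) L (σ⁻¹ • z)) = σ⁻¹ (algebraMap (𝓞 L) L z) from
        algebraMap.coe_smul' σ⁻¹ z L, hz, map_mul]
      congr 1
      rw [show ((σ • d : 𝓞 L) : L) = σ (d : L) from algebraMap.coe_smul' σ d L,
        AlgEquiv.aut_inv, AlgEquiv.symm_apply_apply]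
    have h2 : differentIdeal (𝓞 K) (𝓞 L) ≤ D := le_rfl
    rw [differentialIdeal_le_iff (K := K) (L := L) hD, Submodule.map_le_iff_le_comap] at h2
    have h3 := h2 (Submodule.restrictScalars_mem (𝓞 K) _ _ |>.mpr hy)
    rw [Submodule.mem_comap, LinearMap.coe_restrictScalars] at h3 ⊢
    rwa [Algebra.trace_eq_of_algEquiv] at h3
  refine le_antisymm ?_ (key τ)
  rw [Ideal.pointwise_smul_subset_iff]
  exact key τ⁻¹

/-- The square root is stable. -/
theorem smul_sqrt (hodd : Odd (Nat.card (L ≃ₐ[K] L))) {A : Ideal (𝓞 L)}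
    (hA : A ^ 2 = differentIdeal (𝓞 K) (𝓞 L)) (g : L ≃ₐ[K] L) : g • A = A :=
  (exists_sqrt K L hodd).unique (by rw [← smul_pow', hA, smul_differentIdeal]) hA

end FA.ErezLattice

end
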